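import Mathlib
import Fermat.Agent.LT.H556.A0
import Fermat.Agent.LT.T1.Spec
import Fermat.Agent.LT.T2.Spec
import Fermat.Agent.LT.T2.SpecTau

/-!
# Row LT, tower T2, leaf T2.35 `LeafT15` (helper768), OFF-MAIN

`leafT15_768 K : T2.LeafT15 K`, i.e.
`T1.T1Out K → LeafT14 K → ∀ 𝔫 ≠ ⊥, OpsAdjT K 𝔫 trivType → CuspSpecT K 𝔫 trivType → CuspSpec K 𝔫`
VERBATIM (`LT/T2/SpecTau.lean` sha256 4d2b0fc2, `LT/T2/Spec.lean` v3 sha256 b934629a, byte-identical
copies of origin/helper130@e2e090185).

Proof.  Let `(u_j, m_j, a_j, b_j, c_j)` be a basis of the class `(𝔫, trivType, r)`.  Keep the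
members with trivial central characters, `J₀ = {j : c_j(z) = 1 for every positive scalar z at
every infinite place}`.
* For `j ∈ J₀` the function `u_j` is invariant under the positive scalars at every infinite place,
  hence a cusp function of `Spec.lean`.
* A circle `Y` at a real place `w` (radius `t`) is `Y θ = k θ * a` with `a = Y 0` (`rotY 0 = 1`)
  and `k θ = Y θ * (Y 0)⁻¹`, so `circleMean Y = circleMeanT trivType k a`.
* Parseval: for a cusp function `φ` of `Spec.lean` and `j ∉ J₀` choose `z` with `c_j(z) ≠ 1`;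
  `S_z` is an isometry (`OpsAdjT`, second component), `S_z φ = φ`, `S_z u_j = c_j(z) u_j`, so
  `⟨φ, u_j⟩ = conj (c_j z) ⟨φ, u_j⟩` and `⟨φ, u_j⟩ = 0`.  Hence the Parseval sum of the class is
  the sum over `J₀`.

The hypotheses `T1.T1Out K`, `𝔫 ≠ ⊥` and the existence part of `LeafT14` beyond one ray generator
are not used.
-/

set_option autoImplicit false

open IsDedekindDomain NumberField MeasureTheory AutomorphicForm
open Fermat.Agent.LT.H556.A0

noncomputable section

namespace Fermat.Agent.LT.T2.H768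

open Fermat.Agent.LT.T2

variable {K : Type} [Field K] [NumberField K]

attribute [local instance] Fermat.Agent.LT.T2.borelG

/-! ## Components of products -/

/-- The matrix of `g` at the infinite place `w`, with entries in the completion. -/
def infMat768 (w : InfinitePlace K) (g : G K) : Matrix (Fin 2) (Fin 2) w.Completion :=
  fun i j => ((g : Matrix (Fin 2) (Fin 2) (Adl K)) i j).1 w

theorem infMat_apply768 (w : InfinitePlace K) (g : G K) (i j : Fin 2) :
    infMat768 w g i j = ((g : Matrix (Fin 2) (Fin 2) (Adl K)) i j).1 w := rfl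

theorem finComp_apply768 (v : HeightOneSpectrum (𝓞 K)) (g : G K) (i j : Fin 2) :
    finComp v g i j = ((g : Matrix (Fin 2) (Fin 2) (Adl K)) i j).2 v := rfl

theorem infComp_apply768 (w : InfinitePlace K) (g : G K) (i j : Fin 2) :
    infComp w g i j = InfinitePlace.Completion.extensionEmbedding w
      (((g : Matrix (Fin 2) (Fin 2) (Adl K)) i j).1 w) := rfl

theorem trivAtInf_iff768 (w : InfinitePlace K) (g : G K) :
    TrivAtInf w g ↔ infMat768 w g = 1 := by
  constructor
  · intro h
    apply Matrix.ext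
    intro i j
    exact h i j
  · intro h i j
    have := congrFun (congrFun h i) j
    exact this

theorem infMat_mul768 (w : InfinitePlace K) (x y : G K) :
    infMat768 w (x * y) = infMat768 w x * infMat768 w y := by
  apply Matrix.ext
  intro i j
  rw [Matrix.mul_apply, Fin.sum_univ_two, infMat_apply768, infMat_apply768, infMat_apply768,
    infMat_apply768, infMat_apply768, Units.val_mul, Matrix.mul_apply, Fin.sum_univ_two]
  rfl

theorem infMat_one768 (w : InfinitePlace K) : infMat768 w (1 : G K) = 1 := by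
  apply Matrix.ext
  intro i j
  rw [infMat_apply768, Units.val_one, Matrix.one_apply, Matrix.one_apply]
  split_ifs
  · rfl
  · rfl

theorem finComp_mul768 (v : HeightOneSpectrum (𝓞 K)) (x y : G K) :
    finComp v (x * y) = finComp v x * finComp v y := by
  apply Matrix.ext
  intro i j
  rw [Matrix.mul_apply, Fin.sum_univ_two, finComp_apply768, finComp_apply768, finComp_apply768,
    finComp_apply768, finComp_apply768, Units.val_mul, Matrix.mul_apply, Fin.sum_univ_two]
  rfl

theorem finComp_one768 (v : HeightOneSpectrum (𝓞 K)) : finComp v (1 : G K) = 1 := by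
  apply Matrix.ext
  intro i j
  rw [finComp_apply768, Units.val_one, Matrix.one_apply, Matrix.one_apply]
  split_ifs
  · rfl
  · rfl

theorem infComp_mul768 (w : InfinitePlace K) (x y : G K) :
    infComp w (x * y) = infComp w x * infComp w y := by
  apply Matrix.ext
  intro i j
  rw [Matrix.mul_apply, Fin.sum_univ_two, infComp_apply768, infComp_apply768, infComp_apply768,
    infComp_apply768, infComp_apply768, Units.val_mul, Matrix.mul_apply, Fin.sum_univ_two,
    ← map_mul, ← map_mul, ← map_add]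
  rfl

theorem infComp_one768 (w : InfinitePlace K) : infComp w (1 : G K) = 1 := by
  apply Matrix.ext
  intro i j
  rw [infComp_apply768, Units.val_one, Matrix.one_apply, Matrix.one_apply]
  split_ifs
  · exact map_one _
  · exact map_zero _

theorem trivAtInf_mul768 {w : InfinitePlace K} {x y : G K} (hx : TrivAtInf w x)
    (hy : TrivAtInf w y) : TrivAtInf w (x * y) := by
  rw [trivAtInf_iff768] at hx hy ⊢
  rw [infMat_mul768, hx, hy, one_mul]

theorem trivAtInf_inv768 {w : InfinitePlace K} {x : G K} (hx : TrivAtInf w x) :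
    TrivAtInf w x⁻¹ := by
  rw [trivAtInf_iff768] at hx ⊢
  have h := infMat_mul768 w x x⁻¹
  rw [mul_inv_cancel, infMat_one768, hx, one_mul] at h
  exact h.symm

theorem trivAtFin_mul768 {v : HeightOneSpectrum (𝓞 K)} {x y : G K} (hx : TrivAtFin v x)
    (hy : TrivAtFin v y) : TrivAtFin v (x * y) := by
  unfold TrivAtFin at hx hy ⊢
  rw [finComp_mul768, hx, hy, one_mul]

theorem trivAtFin_inv768 {v : HeightOneSpectrum (𝓞 K)} {x : G K} (hx : TrivAtFin v x) :
    TrivAtFin v x⁻¹ := by
  unfold TrivAtFin at hx ⊢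
  have h := finComp_mul768 v x x⁻¹
  rw [mul_inv_cancel, finComp_one768, hx, one_mul] at h
  exact h.symm

theorem isLocalAtInf_mul768 {w : InfinitePlace K} {x y : G K} (hx : IsLocalAtInf w x)
    (hy : IsLocalAtInf w y) : IsLocalAtInf w (x * y) :=
  ⟨fun w' hw' => trivAtInf_mul768 (hx.1 w' hw') (hy.1 w' hw'),
    fun v => trivAtFin_mul768 (hx.2 v) (hy.2 v)⟩

theorem isLocalAtInf_inv768 {w : InfinitePlace K} {x : G K} (hx : IsLocalAtInf w x) :
    IsLocalAtInf w x⁻¹ :=
  ⟨fun w' hw' => trivAtInf_inv768 (hx.1 w' hw'), fun v => trivAtFin_inv768 (hx.2 v)⟩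

/-! ## The circle means -/

theorem rotY_zero768 : rotY 0 = 1 := by
  apply Matrix.ext
  intro i j
  unfold rotY
  fin_cases i <;> fin_cases j <;> simp

/-- A circle at `w` is a rotation family times a torus element. -/
theorem circle_split768 {w : InfinitePlace K} {t : ℝ} {Y : ℝ → G K} (hY : IsCircleAt w t Y) :
    IsRotAt w (fun θ => Y θ * (Y 0)⁻¹) ∧ IsTorusAt w t (Y 0) := by
  have h0 : infComp w (Y 0) = torus t := by
    rw [(hY 0).2, rotY_zero768, one_mul]
  refine ⟨fun θ => ⟨isLocalAtInf_mul768 (hY θ).1 (isLocalAtInf_inv768 (hY 0).1), ?_⟩,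
    (hY 0).1, h0⟩
  have h1 : infComp w (Y 0) * infComp w (Y 0)⁻¹ = 1 := by
    rw [← infComp_mul768, mul_inv_cancel, infComp_one768]
  rw [infComp_mul768, (hY θ).2, mul_assoc, ← h0, h1, mul_one]

/-- The eigen-property for the twisted circle means at the trivial type gives the one of
`Spec.lean`. -/
theorem meanEigR_of_meanEigRT768 {φ : G K → ℂ} {w : InfinitePlace K} {m : ℝ → ℂ}
    (h : MeanEigRT trivType φ w m) : MeanEigR φ w m := by
  intro t ht Y hY g
  obtain ⟨hk, ha⟩ := circle_split768 hY
  have h1 := h t ht (fun θ => Y θ * (Y 0)⁻¹) (Y 0) hk ha g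
  rw [← h1]
  unfold circleMean circleMeanT
  have h2 : (fun θ : ℝ => (trivType (Y θ * (Y 0)⁻¹))⁻¹ * φ (g * (Y θ * (Y 0)⁻¹) * Y 0))
      = fun θ : ℝ => φ (g * Y θ) := by
    funext θ
    have h3 : g * (Y θ * (Y 0)⁻¹) * Y 0 = g * Y θ := by
      rw [mul_assoc, inv_mul_cancel_right]
    rw [h3]
    unfold trivType
    rw [inv_one, one_mul]
  rw [h2]

/-! ## The pairing -/

theorem pair_const_mul_right768 (F : Frame K) (φ ψ : G K → ℂ) (c : ℂ) :
    pair F φ (fun g => c * ψ g) = (starRingEnd ℂ) c * pair F φ ψ := by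
  unfold pair
  rw [← integral_const_mul]
  congr 1
  funext g
  rw [map_mul]
  ring

/-- Orthogonality of a function invariant under the positive scalars to an eigenfunction of a
central shift with eigenvalue `≠ 1`. -/
theorem pair_eq_zero768 {𝔫 : Ideal (𝓞 K)} {F : Frame K} {r : G K} (hr : IsRayGen r)
    (hadj : OpsAdjT K 𝔫 trivType) {φ ψ : G K → ℂ} (hφ : IsCuspFn 𝔫 φ)
    (hφT : IsCuspT 𝔫 trivType r φ) (hψ : IsCuspT 𝔫 trivType r ψ)
    {w : InfinitePlace K} {z : G K} (hz : IsArchPosScalar w z) {c : ℂ}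
    (hc : ∀ g : G K, ψ (g * z) = c * ψ g) (hne : c ≠ 1) : pair F φ ψ = 0 := by
  have h1 := (hadj ⟨F, r, hr⟩).2.1 w z hz φ ψ hφT hψ
  have h2 : shift z φ = φ := funext fun g => hφ.arch_scalar w z hz g
  have h3 : shift z ψ = fun g => c * ψ g := funext fun g => hc g
  rw [h2, h3] at h1
  have h1' : (starRingEnd ℂ) c * pair F φ ψ = pair F φ ψ := by
    rw [← pair_const_mul_right768]
    exact h1
  have h4 : ((starRingEnd ℂ) c - 1) * pair F φ ψ = 0 := by
    rw [sub_mul, one_mul, h1', sub_self]
  rcases mul_eq_zero.mp h4 with h5 | h5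
  · exfalso
    apply hne
    have h6 : (starRingEnd ℂ) c = 1 := sub_eq_zero.mp h5
    have h7 := congrArg (starRingEnd ℂ) h6
    rw [Complex.conj_conj, map_one] at h7
    exact h7
  · exact h5

/-! ## The leaf -/

/-- **Leaf T2.35** (`LeafT15`): back to the A0 class. -/
theorem leafT15_768 (K : Type) [Field K] [NumberField K] : LeafT15 K := by
  intro _hT1 h14 𝔫 _h𝔫 hadj hspec F
  obtain ⟨r, hr⟩ := h14.1
  obtain ⟨ι, u, m, a, b, c, hB⟩ := hspec ⟨F, r, hr⟩
  have hcuspT : ∀ j, IsCuspT 𝔫 trivType r (u j) := fun j => hB.cusp j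
  have hnorm : ∀ j, pair F (u j) (u j) = 1 := fun j => hB.norm_one j
  have horth : ∀ i j, i ≠ j → pair F (u i) (u j) = 0 := fun i j hij => hB.orth i j hij
  have hpars : ∀ φ : G K → ℂ, IsCuspT 𝔫 trivType r φ →
      HasSum (fun j => ‖pair F φ (u j)‖ ^ 2) (nsq F φ) := fun φ hφ => hB.parseval φ hφ
  refine ⟨{j : ι // ∀ (w : InfinitePlace K) (z : G K), IsArchPosScalar w z → c j z = 1},
    fun j => u j.1, fun j => m j.1, fun j => a j.1, fun j => b j.1, ?_⟩
  refine
    { cusp := ?_
      norm_one := fun j => hnorm j.1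
      orth := fun i j hij => horth i.1 j.1 (fun h => hij (Subtype.ext h))
      eig_complex := fun j w hw => hB.eig_complex j.1 w hw
      eig_real := fun j w hw => meanEigR_of_meanEigRT768 (hB.eig_real j.1 w hw)
      hecke := fun j v hv => hB.hecke j.1 v hv
      unit_b := fun j v hv => hB.unit_b j.1 v hv
      conj_a := fun j v hv => hB.conj_a j.1 v hv
      bound_a := fun j v hv => hB.bound_a j.1 v hv
      real_m := fun j w d hd => hB.real_m j.1 w d hd
      parseval := ?_ }
  · intro j
    have hT := hcuspT j.1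
    refine ⟨hT.aut.cont, hT.aut.bdd, hT.aut.left_inv, hT.aut.level_inv, ?_, ?_, hT.cuspidal⟩
    · intro w z hz g
      rw [hB.central j.1 w z hz g, j.2 w z hz, one_mul]
    · intro w k hk g
      rw [hT.aut.arch_compact w k hk g]
      unfold trivType
      rw [one_mul]
  · intro φ hφ
    have hφT : IsCuspT 𝔫 trivType r φ := isCuspT_of_isCuspFn h14.2 hφ hr
    have hsum := hpars φ hφT
    have hsupp : Function.support (fun j : ι => ‖pair F φ (u j)‖ ^ 2)
        ⊆ {j : ι | ∀ (w : InfinitePlace K) (z : G K), IsArchPosScalar w z → c j z = 1} := by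
      intro j hj
      by_contra hP
      apply hj
      have hP' : ¬ ∀ (w : InfinitePlace K) (z : G K), IsArchPosScalar w z → c j z = 1 := hP
      obtain ⟨w, hw⟩ := not_forall.mp hP'
      obtain ⟨z, hz'⟩ := not_forall.mp hw
      obtain ⟨hz, hne⟩ := Classical.not_imp.mp hz'
      have h0 : pair F φ (u j) = 0 :=
        pair_eq_zero768 hr hadj hφ hφT (hcuspT j) hz (fun g => hB.central j w z hz g) hne
      show ‖pair F φ (u j)‖ ^ 2 = 0
      rw [h0, norm_zero]
      norm_num
    exact (hasSum_subtype_iff_of_support_subset hsupp).mpr hsum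

end Fermat.Agent.LT.T2.H768

end
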